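import Fermat.Agent.S16.INV.Alg

/-!
# S16 / INV: the product of the pivots is the determinant.
INTERFACE (statements frozen, owner helper19).
-/

set_option autoImplicit false

namespace Fermat.Agent.S16.INV

open Complex Real

/-- One step of Gaussian elimination: `det A = A 0 0 * det (schur A)`. -/
theorem det_eq_mul_det_schur {n : ℕ} (A : Matrix (Fin (n + 1)) (Fin (n + 1)) ℝ) (hα : A 0 0 ≠ 0) :
    A.det = A 0 0 * (schur A).det := by
  let c : Fin (n + 1) → ℝ := Fin.cases 0 (fun i => -(A i.succ 0 / A 0 0))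
  let A₁ : Matrix (Fin (n + 1)) (Fin (n + 1)) ℝ := fun i j => A i j + c i * A 0 j
  have h1 : A₁.det = A.det :=
    Matrix.det_eq_of_forall_row_eq_smul_add_const c 0 rfl (fun i j => rfl)
  have h00 : A₁ 0 0 = A 0 0 := by
    show A 0 0 + (0 : ℝ) * A 0 0 = A 0 0
    ring
  have hs0 : ∀ i : Fin n, A₁ i.succ 0 = 0 := by
    intro i
    show A i.succ 0 + -(A i.succ 0 / A 0 0) * A 0 0 = 0
    field_simp
    ring
  have hsub : A₁.submatrix (Fin.succAbove 0) Fin.succ = schur A := by
    ext i j
    show A i.succ j.succ + -(A i.succ 0 / A 0 0) * A 0 j.succ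
      = A i.succ j.succ - A i.succ 0 * A 0 j.succ / A 0 0
    ring
  rw [← h1, Matrix.det_succ_column_zero, Fin.sum_univ_succ]
  rw [Finset.sum_eq_zero (fun i _ => by rw [hs0 i]; ring), add_zero, h00, hsub]
  simp

theorem pivProd_eq_det : ∀ (n : ℕ) (A : Matrix (Fin n) (Fin n) ℝ), Pos A → pivProd n A = A.det := by
  intro n
  induction n with
  | zero =>
    intro A _
    rw [Matrix.det_fin_zero]
    rfl
  | succ n ih =>
    intro A hA
    rw [det_eq_mul_det_schur A (pos_pivot hA).ne', ← ih (schur A) (pos_schur hA)]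
    rfl

end Fermat.Agent.S16.INV
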