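import Fermat.Agent.S16.INV.Step
import Fermat.Agent.S16.INV.Det
import Fermat.Agent.S16.HeckeTrick.Defs

/-!
# S16 / INV (attempt A, owner helper19): the inversion formula in the frozen shape
`Fermat.Agent.S16.TH.InvStatement p A A'`.
-/

set_option autoImplicit false

namespace Fermat.Agent.S16.INV

open Complex Real

/-- `((-iτ)^{-1/2})⁴ = -1/τ²`. -/
theorem const_four (τ : ℂ) : (1 / (-I * τ) ^ (1 / 2 : ℂ)) ^ 4 = -1 / τ ^ 2 := by
  have h : ((-I * τ) ^ (1 / 2 : ℂ)) ^ 2 = -I * τ := by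
    have := Complex.cpow_nat_inv_pow (-I * τ) (n := 2) (by norm_num)
    simpa [one_div] using this
  have h4 : ((-I * τ) ^ (1 / 2 : ℂ)) ^ 4 = -(τ ^ 2) := by
    have : ((-I * τ) ^ (1 / 2 : ℂ)) ^ 4 = (((-I * τ) ^ (1 / 2 : ℂ)) ^ 2) ^ 2 := by ring
    rw [this, h]
    have hI : (I : ℂ) ^ 2 = -1 := Complex.I_sq
    linear_combination (τ ^ 2) * hI
  rw [div_pow, one_pow, h4, one_div, neg_div, inv_neg, one_div]

/-- The real matrices attached to `A`, `A'`. -/
theorem real_mul_inv (p : ℕ) (hp : 0 < p) (A A' : Matrix (Fin 4) (Fin 4) ℤ)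
    (hAA' : A * A' = (p : ℤ) • (1 : Matrix (Fin 4) (Fin 4) ℤ)) :
    A.map (Int.cast : ℤ → ℝ) * ((1 / (p : ℝ)) • A'.map (Int.cast : ℤ → ℝ)) = 1 := by
  have hp' : (p : ℝ) ≠ 0 := by exact_mod_cast hp.ne'
  have h1 : A.map (Int.cast : ℤ → ℝ) * A'.map (Int.cast : ℤ → ℝ) =
      (p : ℝ) • (1 : Matrix (Fin 4) (Fin 4) ℝ) := by
    ext i j
    have h := congrArg (fun z : ℤ => (z : ℝ)) (congrFun (congrFun hAA' i) j)
    simp only [Matrix.mul_apply, Matrix.smul_apply, Matrix.one_apply, Matrix.map_apply,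
      smul_eq_mul] at h ⊢
    push_cast at h
    rw [h]
  rw [Matrix.mul_smul, h1, smul_smul, one_div, inv_mul_cancel₀ hp', one_smul]

/-- **INV**: the inversion formula for the pair `A`, `A'` in the frozen shape. -/
theorem inv_statement (p : ℕ) (hp : 0 < p) (A A' : Matrix (Fin 4) (Fin 4) ℤ)
    (hpos : (A.map (Int.cast : ℤ → ℝ)).PosDef)
    (hAA' : A * A' = (p : ℤ) • (1 : Matrix (Fin 4) (Fin 4) ℤ))
    (hdet : A.det = (p : ℤ) ^ 2) : Fermat.Agent.S16.TH.InvStatement p A A' := by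
  intro v τ hτ
  have hp' : (p : ℝ) ≠ 0 := by exact_mod_cast hp.ne'
  have hpC : (p : ℂ) ≠ 0 := by exact_mod_cast hp.ne'
  have hτ0 : τ ≠ 0 := by
    rintro rfl
    simp at hτ
  have hA : Pos (A.map (Int.cast : ℤ → ℝ)) := pos_of_posDef hpos
  have hAB := real_mul_inv p hp A A' hAA'
  -- the terms in the frozen shape
  have hTA : ∀ x : Fin 4 → ℤ,
      cexp (2 * π * Complex.I * (TH.quad A (fun i => (x i : ℝ) + v i) : ℂ) * τ) =
        termA (A.map (Int.cast : ℤ → ℝ)) τ (fun i => (v i : ℂ)) x := by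
    intro x
    unfold termA qf TH.quad
    congr 1
    push_cast
    simp only [Matrix.map_apply]
    push_cast
    ring
  have hTB : ∀ y : Fin 4 → ℤ,
      cexp (2 * π * Complex.I * (-(TH.quad A' (fun i => (y i : ℝ)) : ℂ) / ((p : ℂ) * τ)
          + ∑ i, (y i : ℂ) * (v i : ℂ))) =
        termB ((1 / (p : ℝ)) • A'.map (Int.cast : ℤ → ℝ)) τ (fun i => (v i : ℂ)) y := by
    intro y
    unfold termB qf TH.quad
    congr 1
    push_cast
    simp only [Matrix.smul_apply, Matrix.map_apply, smul_eq_mul]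
    push_cast
    rw [show ∑ i : Fin 4, ∑ j : Fin 4, (1 / (p : ℂ) * (A' i j : ℂ)) * (y i : ℂ) * (y j : ℂ) =
      (1 / (p : ℂ)) * ∑ i : Fin 4, ∑ j : Fin 4, (A' i j : ℂ) * (y i : ℂ) * (y j : ℂ) by
        rw [Finset.mul_sum]
        refine Finset.sum_congr rfl (fun i _ => ?_)
        rw [Finset.mul_sum]
        refine Finset.sum_congr rfl (fun j _ => ?_)
        ring]
    field_simp
  have hsA := summable_termA hA τ hτ (fun i => (v i : ℂ))
  have hsB := summable_termB hA hAB τ hτ (fun i => (v i : ℂ))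
  refine ⟨?_, ?_, ?_⟩
  · exact hsA.congr (fun x => (hTA x).symm)
  · exact hsB.congr (fun y => (hTB y).symm)
  · rw [tsum_congr hTA, tsum_congr hTB, poissonAt 4 _ _ hA hAB τ hτ, const_four,
      pivProd_eq_det 4 _ hA]
    have hd : (A.map (Int.cast : ℤ → ℝ)).det = (p : ℝ) ^ 2 := by
      rw [← Int.cast_det, hdet]
      push_cast
      ring
    rw [hd, Real.sqrt_sq (by positivity)]
    push_cast
    ring

end Fermat.Agent.S16.INV
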