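import Fermat.Agent.S16.INV.Defs

/-!
# S16 / INV: linear algebra of the induction step.  INTERFACE (statements frozen, owner helper19).
-/

set_option autoImplicit false

namespace Fermat.Agent.S16.INV

open Complex Real

variable {n : ℕ}

/-- The pivot is positive. -/
theorem pos_pivot {A : Matrix (Fin (n + 1)) (Fin (n + 1)) ℝ} (hA : Pos A) : 0 < A 0 0 := by
  have h := hA.2 (Pi.single 0 1) (by
    intro h
    have h0 := congrFun h 0
    simp at h0)
  have e : ∑ i, ∑ j, A i j * (Pi.single 0 1 : Fin (n + 1) → ℝ) i *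
      (Pi.single 0 1 : Fin (n + 1) → ℝ) j = A 0 0 := by
    rw [Finset.sum_eq_single 0]
    · rw [Finset.sum_eq_single 0]
      · simp
      · intro j _ hj
        simp [hj]
      · intro h0; exact absurd (Finset.mem_univ _) h0
    · intro i _ hi
      refine Finset.sum_eq_zero fun j _ => ?_
      simp [Pi.single_apply, hi]
    · intro h0; exact absurd (Finset.mem_univ _) h0
  rwa [e] at h

/-- Real completion of the square:
`xᵀ A x = α (x₀ + ∑ ℓⱼ x_{j+1})² + x'ᵀ (schur A) x'` (`A` symmetric, `α = A 0 0 ≠ 0`). -/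
theorem real_sq_completion {A : Matrix (Fin (n + 1)) (Fin (n + 1)) ℝ} (hA : Pos A)
    (x : Fin (n + 1) → ℝ) :
    ∑ i, ∑ j, A i j * x i * x j =
      A 0 0 * (x 0 + ∑ j, lrow A j * x j.succ) ^ 2 +
        ∑ i, ∑ j, schur A i j * x i.succ * x j.succ := by
  have hα : A 0 0 ≠ 0 := (pos_pivot hA).ne'
  have hsym := hA.1
  have h1 : ∑ j, lrow A j * x j.succ = (∑ j : Fin n, A 0 j.succ * x j.succ) / A 0 0 := by
    rw [Finset.sum_div]
    exact Finset.sum_congr rfl fun j _ => by unfold lrow; ring
  have h2 : ∑ i, ∑ j, schur A i j * x i.succ * x j.succ =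
      ∑ i : Fin n, ∑ j : Fin n, A i.succ j.succ * x i.succ * x j.succ -
        (∑ j : Fin n, A 0 j.succ * x j.succ) * (∑ j : Fin n, A 0 j.succ * x j.succ) / A 0 0 := by
    rw [Finset.sum_mul_sum, Finset.sum_div, ← Finset.sum_sub_distrib]
    refine Finset.sum_congr rfl fun i _ => ?_
    rw [Finset.sum_div, ← Finset.sum_sub_distrib]
    refine Finset.sum_congr rfl fun j _ => ?_
    unfold schur
    rw [hsym i.succ 0]
    ring
  have h3 : ∑ i, ∑ j, A i j * x i * x j =
      A 0 0 * x 0 ^ 2 + 2 * x 0 * (∑ j : Fin n, A 0 j.succ * x j.succ) +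
        ∑ i : Fin n, ∑ j : Fin n, A i.succ j.succ * x i.succ * x j.succ := by
    have e1 : ∑ j : Fin n, A 0 j.succ * x 0 * x j.succ = x 0 * ∑ j : Fin n, A 0 j.succ * x j.succ := by
      rw [Finset.mul_sum]
      exact Finset.sum_congr rfl fun j _ => by ring
    have e2 : ∑ i : Fin n, A i.succ 0 * x i.succ * x 0 = x 0 * ∑ j : Fin n, A 0 j.succ * x j.succ := by
      rw [Finset.mul_sum]
      exact Finset.sum_congr rfl fun j _ => by rw [hsym j.succ 0]; ring
    rw [Fin.sum_univ_succ]
    simp only [Fin.sum_univ_succ (fun j => A _ j * x _ * x j)]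
    rw [Finset.sum_add_distrib, e1, e2]
    ring
  rw [h3, h2, h1]
  field_simp
  ring

/-- The Schur complement is again symmetric positive definite. -/
theorem pos_schur {A : Matrix (Fin (n + 1)) (Fin (n + 1)) ℝ} (hA : Pos A) : Pos (schur A) := by
  refine ⟨fun i j => ?_, fun x' hx' => ?_⟩
  · unfold schur
    rw [hA.1 i.succ j.succ, hA.1 i.succ 0, hA.1 0 j.succ]
    ring
  · have hne : (Fin.cons (-(∑ j, lrow A j * x' j)) x' : Fin (n + 1) → ℝ) ≠ 0 := by
      intro h
      apply hx'
      funext j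
      have hj := congrFun h j.succ
      simpa using hj
    have hpos := hA.2 _ hne
    rw [real_sq_completion hA] at hpos
    simpa [Fin.cons_zero, Fin.cons_succ] using hpos

/-- The inverse of the Schur complement is the lower right block of the inverse. -/
theorem schur_mul_lowerRight {A B : Matrix (Fin (n + 1)) (Fin (n + 1)) ℝ} (hA : Pos A)
    (hAB : A * B = 1) : schur A * lowerRight B = 1 := by
  have hα : A 0 0 ≠ 0 := (pos_pivot hA).ne'
  ext i j
  rw [Matrix.mul_apply, Matrix.one_apply]
  have e1 := congrFun (congrFun hAB i.succ) j.succ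
  rw [Matrix.mul_apply, Matrix.one_apply, Fin.sum_univ_succ] at e1
  have e2 := congrFun (congrFun hAB 0) j.succ
  rw [Matrix.mul_apply, Matrix.one_apply, Fin.sum_univ_succ,
    if_neg (Fin.succ_ne_zero j).symm] at e2
  have e3 : ∑ k, schur A i k * lowerRight B k j =
      ∑ k : Fin n, A i.succ k.succ * B k.succ j.succ -
        A i.succ 0 / A 0 0 * ∑ k : Fin n, A 0 k.succ * B k.succ j.succ := by
    rw [Finset.mul_sum, ← Finset.sum_sub_distrib]
    refine Finset.sum_congr rfl fun k _ => ?_
    unfold schur lowerRight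
    ring
  rw [e3]
  have e4 : ∑ k : Fin n, A 0 k.succ * B k.succ j.succ = - (A 0 0 * B 0 j.succ) := by
    linarith
  have e5 : ∑ k : Fin n, A i.succ k.succ * B k.succ j.succ =
      (if i.succ = j.succ then 1 else 0) - A i.succ 0 * B 0 j.succ := by
    linarith
  rw [e4, e5]
  have e6 : (if i.succ = j.succ then (1 : ℝ) else 0) = if i = j then 1 else 0 := by
    simp only [Fin.succ_inj]
  rw [e6]
  field_simp
  ring

end Fermat.Agent.S16.INV
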