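import Fermat.Agent.S16.INV.Defs

/-!
# S16 / INV: a positive definite quadratic form is coercive.
INTERFACE (statement frozen, owner helper19).
-/

set_option autoImplicit false

namespace Fermat.Agent.S16.INV

open Complex Real

/-- Scaling: for `s = ∑ xᵢ² > 0`, `q x = s * q (x / √s)` and `x / √s` is on the unit sphere. -/
theorem coercive_aux_scale {n : ℕ} (A : Matrix (Fin n) (Fin n) ℝ) (x : Fin n → ℝ)
    (hs : 0 < ∑ i, x i ^ 2) :
    (∑ i, ((Real.sqrt (∑ i, x i ^ 2))⁻¹ * x i) ^ 2 = 1) ∧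
    (∑ i, ∑ j, A i j * x i * x j = (∑ i, x i ^ 2) *
      ∑ i, ∑ j, A i j * ((Real.sqrt (∑ i, x i ^ 2))⁻¹ * x i) *
        ((Real.sqrt (∑ i, x i ^ 2))⁻¹ * x j)) := by
  set s : ℝ := ∑ i, x i ^ 2 with hsdef
  have hr : 0 < Real.sqrt s := Real.sqrt_pos.2 hs
  have hr2 : Real.sqrt s ^ 2 = s := Real.sq_sqrt hs.le
  have hinv : ((Real.sqrt s)⁻¹) ^ 2 * s = 1 := by
    rw [inv_pow, hr2]
    exact inv_mul_cancel₀ hs.ne'
  constructor
  · have : ∀ i, ((Real.sqrt s)⁻¹ * x i) ^ 2 = ((Real.sqrt s)⁻¹) ^ 2 * x i ^ 2 := fun i => by ring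
    simp only [this]
    rw [← Finset.mul_sum, ← hsdef, hinv]
  · have : ∀ i j, A i j * ((Real.sqrt s)⁻¹ * x i) * ((Real.sqrt s)⁻¹ * x j)
        = ((Real.sqrt s)⁻¹) ^ 2 * (A i j * x i * x j) := fun i j => by ring
    simp only [this]
    simp only [← Finset.mul_sum]
    rw [← mul_assoc, mul_comm s, hinv, one_mul]

/-- `xᵀ A x ≥ lam · ∑ xᵢ²` for some `lam > 0`. -/
theorem coercive {n : ℕ} {A : Matrix (Fin n) (Fin n) ℝ} (hA : Pos A) :
    ∃ lam : ℝ, 0 < lam ∧ ∀ x : Fin n → ℝ, lam * ∑ i, x i ^ 2 ≤ ∑ i, ∑ j, A i j * x i * x j := by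
  set q : (Fin n → ℝ) → ℝ := fun x => ∑ i, ∑ j, A i j * x i * x j with hq
  have hqc : Continuous q := by
    rw [hq]; fun_prop
  set K : Set (Fin n → ℝ) := {x | ∑ i, x i ^ 2 = 1} with hK
  have hKclosed : IsClosed K := isClosed_eq (by fun_prop) continuous_const
  have hKbdd : Bornology.IsBounded K := by
    refine (Metric.isBounded_iff_subset_closedBall 0).2 ⟨1, fun x hx => ?_⟩
    rw [mem_closedBall_zero_iff, pi_norm_le_iff_of_nonneg zero_le_one]
    intro i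
    rw [Real.norm_eq_abs]
    have h1 : x i ^ 2 ≤ 1 := by
      have hx' : ∑ i, x i ^ 2 = 1 := hx
      rw [← hx']
      exact Finset.single_le_sum (f := fun j => x j ^ 2) (fun j _ => sq_nonneg (x j))
        (Finset.mem_univ i)
    exact (sq_le_one_iff_abs_le_one (x i)).1 h1
  have hKc : IsCompact K := Metric.isCompact_of_isClosed_isBounded hKclosed hKbdd
  -- zero-sum case
  have hzero : ∀ x : Fin n → ℝ, ¬ 0 < ∑ i, x i ^ 2 → ∀ lam : ℝ,
      lam * ∑ i, x i ^ 2 ≤ ∑ i, ∑ j, A i j * x i * x j := by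
    intro x hx lam
    have hnn : 0 ≤ ∑ i, x i ^ 2 := Finset.sum_nonneg (fun i _ => sq_nonneg (x i))
    have h0 : ∑ i, x i ^ 2 = 0 := le_antisymm (not_lt.1 hx) hnn
    have hxi : ∀ i, x i = 0 := by
      intro i
      have := (Finset.sum_eq_zero_iff_of_nonneg (fun i _ => sq_nonneg (x i))).1 h0 i
        (Finset.mem_univ i)
      exact pow_eq_zero_iff (two_ne_zero) |>.1 this
    simp [hxi]
  rcases K.eq_empty_or_nonempty with hKe | hKne
  · refine ⟨1, one_pos, fun x => ?_⟩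
    by_cases hs : 0 < ∑ i, x i ^ 2
    · exfalso
      have hmem : (fun i => (Real.sqrt (∑ i, x i ^ 2))⁻¹ * x i) ∈ K :=
        (coercive_aux_scale A x hs).1
      rw [hKe] at hmem
      exact hmem
    · exact hzero x hs 1
  · obtain ⟨x₀, hx₀K, hx₀min⟩ := hKc.exists_isMinOn hKne hqc.continuousOn
    have hx₀ne : x₀ ≠ 0 := by
      rintro rfl
      have h1 : ∑ i : Fin n, (0 : Fin n → ℝ) i ^ 2 = 1 := hx₀K
      simp at h1
    refine ⟨q x₀, hA.2 x₀ hx₀ne, fun x => ?_⟩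
    by_cases hs : 0 < ∑ i, x i ^ 2
    · obtain ⟨hmem, heq⟩ := coercive_aux_scale A x hs
      have hle : q x₀ ≤ q (fun i => (Real.sqrt (∑ i, x i ^ 2))⁻¹ * x i) :=
        hx₀min (show (fun i => (Real.sqrt (∑ i, x i ^ 2))⁻¹ * x i) ∈ K from hmem)
      rw [heq, mul_comm]
      exact mul_le_mul_of_nonneg_left hle hs.le
    · exact hzero x hs (q x₀)

end Fermat.Agent.S16.INV
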