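import Mathlib

/-!
# S16 / INV (attempt A, owner helper19): Gaussian Poisson summation in `n` variables by
induction on the dimension.  Common definitions (complete; FROZEN).

For a real symmetric positive definite matrix `A` (predicate `Pos A`), `B = A⁻¹`, `τ` in the
upper half plane and a complex vector `v`:
`∑_{x ∈ ℤⁿ} exp(π i τ (x+v)ᵀ A (x+v))
   = (√(pivProd A))⁻¹ · ((-iτ)^{-1/2})ⁿ · ∑_{y ∈ ℤⁿ} exp(-π i yᵀ B y / τ + 2 π i yᵀ v)`.
Induction step: split off the coordinate `0`; `α = A 0 0`, `ℓ = lrow A` (first row / `α`),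
`schur A` = Schur complement, `lowerRight B` = its inverse.
-/

set_option autoImplicit false

namespace Fermat.Agent.S16.INV

open Complex Real

/-- The quadratic form `z ↦ zᵀ A z` of a real matrix, evaluated on complex vectors. -/
noncomputable def qf {n : ℕ} (A : Matrix (Fin n) (Fin n) ℝ) (z : Fin n → ℂ) : ℂ :=
  ∑ i, ∑ j, (A i j : ℂ) * z i * z j

/-- `A` is symmetric and its quadratic form is positive definite (explicit sums). -/
def Pos {n : ℕ} (A : Matrix (Fin n) (Fin n) ℝ) : Prop :=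
  (∀ i j, A i j = A j i) ∧ ∀ x : Fin n → ℝ, x ≠ 0 → 0 < ∑ i, ∑ j, A i j * x i * x j

/-- Schur complement with respect to the entry `(0, 0)`. -/
noncomputable def schur {n : ℕ} (A : Matrix (Fin (n + 1)) (Fin (n + 1)) ℝ) :
    Matrix (Fin n) (Fin n) ℝ :=
  fun i j => A i.succ j.succ - A i.succ 0 * A 0 j.succ / A 0 0

/-- The first row divided by the pivot: `ℓ j = A 0 (j+1) / A 0 0`. -/
noncomputable def lrow {n : ℕ} (A : Matrix (Fin (n + 1)) (Fin (n + 1)) ℝ) : Fin n → ℝ :=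
  fun j => A 0 j.succ / A 0 0

/-- The lower right block. -/
def lowerRight {n : ℕ} (B : Matrix (Fin (n + 1)) (Fin (n + 1)) ℝ) : Matrix (Fin n) (Fin n) ℝ :=
  fun i j => B i.succ j.succ

/-- The product of the pivots of Gaussian elimination (equal to `det A`). -/
noncomputable def pivProd : (n : ℕ) → Matrix (Fin n) (Fin n) ℝ → ℝ
  | 0, _ => 1
  | (n + 1), A => A 0 0 * pivProd n (schur A)

/-- The term of the theta series of `A` with (complex) characteristic `v`. -/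
noncomputable def termA {n : ℕ} (A : Matrix (Fin n) (Fin n) ℝ) (τ : ℂ) (v : Fin n → ℂ)
    (x : Fin n → ℤ) : ℂ :=
  cexp (π * I * τ * qf A (fun i => (x i : ℂ) + v i))

/-- The term of the dual theta series (`B` will be the inverse of `A`). -/
noncomputable def termB {n : ℕ} (B : Matrix (Fin n) (Fin n) ℝ) (τ : ℂ) (v : Fin n → ℂ)
    (y : Fin n → ℤ) : ℂ :=
  cexp (-π * I / τ * qf B (fun i => (y i : ℂ)) + 2 * π * I * ∑ i, (y i : ℂ) * v i)

/-- The one-dimensional (complex) shift `w(x') = v₀ + ∑ⱼ ℓⱼ (x'ⱼ + v_{j+1})`. -/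
noncomputable def wshift {n : ℕ} (A : Matrix (Fin (n + 1)) (Fin (n + 1)) ℝ)
    (v : Fin (n + 1) → ℂ) (x' : Fin n → ℤ) : ℂ :=
  v 0 + ∑ j, (lrow A j : ℂ) * ((x' j : ℂ) + v j.succ)

/-- The mixed term after the one-dimensional Poisson summation in the coordinate `0`. -/
noncomputable def mixed {n : ℕ} (A : Matrix (Fin (n + 1)) (Fin (n + 1)) ℝ) (τ : ℂ)
    (v : Fin (n + 1) → ℂ) (m : ℤ) (x' : Fin n → ℤ) : ℂ :=
  cexp (-π * I * (m : ℂ) ^ 2 / ((A 0 0 : ℂ) * τ) + 2 * π * I * m * wshift A v x') *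
    termA (schur A) τ (Fin.tail v) x'

/-- The shift `s_m = (m / τ) · B' ℓ` used in the induction step (`B' = lowerRight B`). -/
noncomputable def shift {n : ℕ} (A B : Matrix (Fin (n + 1)) (Fin (n + 1)) ℝ) (τ : ℂ) (m : ℤ) :
    Fin n → ℂ :=
  fun j => (m : ℂ) / τ * ∑ k, (lowerRight B j k : ℂ) * (lrow A k : ℂ)

/-- `κ = ℓᵀ B' ℓ`. -/
noncomputable def kappa {n : ℕ} (A B : Matrix (Fin (n + 1)) (Fin (n + 1)) ℝ) : ℝ :=
  ∑ j, ∑ k, lowerRight B j k * lrow A j * lrow A k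

/-- The factor `E(m) = exp(-π i m²/(α τ) + 2 π i m v₀ - π i m² κ / τ)`. -/
noncomputable def Efac {n : ℕ} (A B : Matrix (Fin (n + 1)) (Fin (n + 1)) ℝ) (τ : ℂ) (v₀ : ℂ)
    (m : ℤ) : ℂ :=
  cexp (-π * I * (m : ℂ) ^ 2 / ((A 0 0 : ℂ) * τ) + 2 * π * I * m * v₀
    - π * I * (m : ℂ) ^ 2 * (kappa A B : ℂ) / τ)

end Fermat.Agent.S16.INV
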