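import Fermat.Agent.S16.INV.Defs

/-!
# S16 / INV: summability of Gaussian families with a linear term.
INTERFACE (statements frozen, owner helper19).
-/

set_option autoImplicit false

namespace Fermat.Agent.S16.INV

open Complex Real

/-- One variable: `k ↦ exp(-c k² + b k)` is summable over `ℤ` for `c > 0`. -/
theorem summable_gauss_one (c : ℝ) (hc : 0 < c) (b : ℝ) :
    Summable fun k : ℤ => Real.exp (-c * (k : ℝ) ^ 2 + b * k) := by
  have hπ : (0 : ℝ) < π := Real.pi_pos
  have hτ : 0 < (((c / π : ℝ) : ℂ) * I).im := by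
    rw [Complex.mul_I_im, Complex.ofReal_re]
    exact div_pos hc hπ
  have h := ((summable_jacobiTheta₂_term_iff (((-b / (2 * π) : ℝ) : ℂ) * I)
    (((c / π : ℝ) : ℂ) * I)).mpr hτ).norm
  refine h.congr (fun k => ?_)
  rw [norm_jacobiTheta₂_term, Complex.mul_I_im, Complex.ofReal_re, Complex.mul_I_im,
    Complex.ofReal_re]
  congr 1
  field_simp
  ring

/-- Product families: `x ↦ exp(∑ᵢ (-c xᵢ² + bᵢ xᵢ))` is summable over `ℤⁿ`. -/
theorem summable_pi_gauss (n : ℕ) (c : ℝ) (hc : 0 < c) (b : Fin n → ℝ) :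
    Summable fun x : Fin n → ℤ => Real.exp (∑ i, (-c * (x i : ℝ) ^ 2 + b i * x i)) := by
  induction n with
  | zero => exact Summable.of_finite
  | succ n ih =>
    have hf := summable_gauss_one c hc (b 0)
    have hg := ih (fun j => b j.succ)
    have hprod := Summable.mul_of_nonneg hf hg (fun _ => (Real.exp_pos _).le)
      (fun _ => (Real.exp_pos _).le)
    rw [← (Fin.consEquiv (fun _ => ℤ)).summable_iff]
    refine hprod.congr (fun p => ?_)
    simp only [Function.comp_apply, Fin.consEquiv_apply, Fin.sum_univ_succ, Fin.cons_zero,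
      Fin.cons_succ, Real.exp_add]

end Fermat.Agent.S16.INV
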