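import Fermat.Agent.S16.INV.Defs

/-!
# S16 / INV: completing the square in the mixed term.
INTERFACE (statement frozen, owner helper19).
-/

set_option autoImplicit false

namespace Fermat.Agent.S16.INV

open Complex Real

variable {n : ℕ}

/-- Expansion of the quadratic form at `u + s` when `S s = c • l` and `S` is symmetric. -/
theorem mixedeq_qf_add (S : Matrix (Fin n) (Fin n) ℝ) (hS : ∀ i j, S i j = S j i)
    (u s l : Fin n → ℂ) (c : ℂ) (hF : ∀ i, ∑ j, (S i j : ℂ) * s j = c * l i) :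
    qf S (fun j => u j + s j) =
      qf S u + 2 * c * ∑ j, l j * u j + c * ∑ j, s j * l j := by
  have h1 : ∑ i, ∑ j, (S i j : ℂ) * u i * s j = c * ∑ j, l j * u j := by
    rw [Finset.mul_sum]
    refine Finset.sum_congr rfl (fun i _ => ?_)
    have : ∑ j, (S i j : ℂ) * u i * s j = u i * ∑ j, (S i j : ℂ) * s j := by
      rw [Finset.mul_sum]
      exact Finset.sum_congr rfl (fun j _ => by ring)
    rw [this, hF i]; ring
  have h2 : ∑ i, ∑ j, (S i j : ℂ) * s i * u j = c * ∑ j, l j * u j := by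
    rw [Finset.sum_comm, ← h1]
    refine Finset.sum_congr rfl (fun i _ => Finset.sum_congr rfl (fun j _ => ?_))
    rw [hS j i]; ring
  have h3 : ∑ i, ∑ j, (S i j : ℂ) * s i * s j = c * ∑ j, s j * l j := by
    rw [Finset.mul_sum]
    refine Finset.sum_congr rfl (fun i _ => ?_)
    have : ∑ j, (S i j : ℂ) * s i * s j = s i * ∑ j, (S i j : ℂ) * s j := by
      rw [Finset.mul_sum]
      exact Finset.sum_congr rfl (fun j _ => by ring)
    rw [this, hF i]; ring
  have h0 : qf S (fun j => u j + s j) =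
      qf S u + ∑ i, ∑ j, (S i j : ℂ) * u i * s j + ∑ i, ∑ j, (S i j : ℂ) * s i * u j
        + ∑ i, ∑ j, (S i j : ℂ) * s i * s j := by
    unfold qf
    simp only [← Finset.sum_add_distrib]
    refine Finset.sum_congr rfl (fun i _ => Finset.sum_congr rfl (fun j _ => ?_))
    ring
  rw [h0, h1, h2, h3]; ring

/-- Fact (F): `S (B' ℓ) = ℓ`. -/
theorem mixedeq_fact {A B : Matrix (Fin (n + 1)) (Fin (n + 1)) ℝ}
    (hSB : schur A * lowerRight B = 1) (τ : ℂ) (m : ℤ) (i : Fin n) :
    ∑ j, (schur A i j : ℂ) * shift A B τ m j = (m : ℂ) / τ * (lrow A i : ℂ) := by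
  have hreal : ∑ j, schur A i j * ∑ k, lowerRight B j k * lrow A k = lrow A i := by
    have e1 : ∑ j, schur A i j * ∑ k, lowerRight B j k * lrow A k
        = ∑ k, (∑ j, schur A i j * lowerRight B j k) * lrow A k := by
      simp only [Finset.mul_sum, Finset.sum_mul]
      rw [Finset.sum_comm]
      refine Finset.sum_congr rfl (fun k _ => Finset.sum_congr rfl (fun j _ => ?_))
      ring
    rw [e1]
    have e2 : ∀ k, ∑ j, schur A i j * lowerRight B j k = if i = k then 1 else 0 := by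
      intro k
      have := congrFun (congrFun hSB i) k
      rw [Matrix.mul_apply, Matrix.one_apply] at this
      exact this
    simp only [e2]
    simp
  have hc : ∑ j, (schur A i j : ℂ) * ∑ k, (lowerRight B j k : ℂ) * (lrow A k : ℂ)
      = (lrow A i : ℂ) := by
    exact_mod_cast congrArg (fun x : ℝ => (x : ℂ)) hreal
  unfold shift
  rw [← hc, Finset.mul_sum]
  refine Finset.sum_congr rfl (fun j _ => ?_)
  ring

/-- `∑ s j ℓ j = (m/τ) κ`. -/
theorem mixedeq_kappa (A B : Matrix (Fin (n + 1)) (Fin (n + 1)) ℝ) (τ : ℂ) (m : ℤ) :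
    ∑ j, shift A B τ m j * (lrow A j : ℂ) = (m : ℂ) / τ * (kappa A B : ℂ) := by
  unfold shift kappa
  push_cast
  rw [Finset.mul_sum]
  refine Finset.sum_congr rfl (fun j _ => ?_)
  rw [mul_assoc]
  congr 1
  rw [Finset.sum_mul]
  refine Finset.sum_congr rfl (fun k _ => ?_)
  ring

/-- `mixed m x' = E(m) · termA (schur A) τ (v' + s_m) x'`, where `S = schur A` is symmetric and
`S * B' = 1` (`B' = lowerRight B`). -/
theorem mixed_eq {A B : Matrix (Fin (n + 1)) (Fin (n + 1)) ℝ}
    (hS : ∀ i j, schur A i j = schur A j i) (hSB : schur A * lowerRight B = 1)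
    (τ : ℂ) (hτ : τ ≠ 0) (v : Fin (n + 1) → ℂ) (m : ℤ) (x' : Fin n → ℤ) :
    mixed A τ v m x' =
      Efac A B τ (v 0) m * termA (schur A) τ (fun j => v j.succ + shift A B τ m j) x' := by
  have KEY : qf (schur A) (fun j => (x' j : ℂ) + (v j.succ + shift A B τ m j)) =
      qf (schur A) (fun j => (x' j : ℂ) + v j.succ)
        + 2 * ((m : ℂ) / τ) * ∑ j, (lrow A j : ℂ) * ((x' j : ℂ) + v j.succ)
        + ((m : ℂ) / τ) * ((m : ℂ) / τ * (kappa A B : ℂ)) := by
    have h := mixedeq_qf_add (schur A) hS (fun j => (x' j : ℂ) + v j.succ) (shift A B τ m)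
      (fun j => (lrow A j : ℂ)) ((m : ℂ) / τ) (mixedeq_fact hSB τ m)
    rw [mixedeq_kappa] at h
    rw [← h]
    congr 1
    funext j
    ring
  unfold mixed Efac termA wshift
  rw [← Complex.exp_add, ← Complex.exp_add]
  congr 1
  have hT : (fun i => (x' i : ℂ) + Fin.tail v i) = (fun j => (x' j : ℂ) + v j.succ) := rfl
  rw [hT, KEY]
  generalize qf (schur A) (fun j => (x' j : ℂ) + v j.succ) = Q
  generalize ∑ j, (lrow A j : ℂ) * ((x' j : ℂ) + v j.succ) = L
  generalize (-(π : ℂ) * I * (m : ℂ) ^ 2 / ((A 0 0 : ℂ) * τ)) = P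
  field_simp
  ring

end Fermat.Agent.S16.INV
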