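import Fermat.Agent.S16.INV.Defs

/-!
# S16 / INV: the one-dimensional Gaussian Poisson summation formula with complex shift
(from `jacobiTheta₂_functional_equation`).  INTERFACE (statement frozen, owner helper19).
-/

set_option autoImplicit false

namespace Fermat.Agent.S16.INV

open Complex Real

/-- The constant: `(-I * (α τ))^(1/2) = √α * (-I τ)^(1/2)` for `α > 0`, `τ ≠ 0`. -/
theorem poissonone_const (α : ℝ) (hα : 0 < α) (τ : ℂ) (hτ0 : τ ≠ 0) :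
    (-I * ((α : ℂ) * τ)) ^ (1 / 2 : ℂ) =
      ((Real.sqrt α : ℝ) : ℂ) * (-I * τ) ^ (1 / 2 : ℂ) := by
  have hα0 : (α : ℂ) ≠ 0 := Complex.ofReal_ne_zero.mpr hα.ne'
  have hc : -I * τ ≠ 0 := mul_ne_zero (neg_ne_zero.mpr Complex.I_ne_zero) hτ0
  have h1 : -I * ((α : ℂ) * τ) = (α : ℂ) * (-I * τ) := by ring
  have hsqrt : ((Real.sqrt α : ℝ) : ℂ) = (α : ℂ) ^ (1 / 2 : ℂ) := by
    rw [Real.sqrt_eq_rpow, Complex.ofReal_cpow hα.le (1 / 2)]
    congr 1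
    push_cast
    ring
  rw [h1, hsqrt, Complex.cpow_def_of_ne_zero (mul_ne_zero hα0 hc),
    Complex.cpow_def_of_ne_zero hα0, Complex.cpow_def_of_ne_zero hc,
    Complex.log_ofReal_mul hα hc, ← Complex.ofReal_log hα.le, ← Complex.exp_add]
  congr 1
  ring

/-- `∑ₖ exp(π i τ α (k + w)²) = (√α)⁻¹ (-iτ)^{-1/2} ∑ₘ exp(-π i m²/(α τ) + 2 π i m w)`. -/
theorem poisson_one (α : ℝ) (hα : 0 < α) (τ : ℂ) (hτ : 0 < τ.im) (w : ℂ) :
    ∑' k : ℤ, cexp (π * I * τ * ((α : ℂ) * ((k : ℂ) + w) ^ 2)) =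
      (((Real.sqrt α)⁻¹ : ℝ) : ℂ) * (1 / (-I * τ) ^ (1 / 2 : ℂ)) *
        ∑' m : ℤ, cexp (-π * I * (m : ℂ) ^ 2 / ((α : ℂ) * τ) + 2 * π * I * m * w) := by
  have hτ0 : τ ≠ 0 := by
    rintro rfl
    simp at hτ
  have hα0 : (α : ℂ) ≠ 0 := Complex.ofReal_ne_zero.mpr hα.ne'
  have hT : (α : ℂ) * τ ≠ 0 := mul_ne_zero hα0 hτ0
  have hsq : ((Real.sqrt α : ℝ) : ℂ) ≠ 0 :=
    Complex.ofReal_ne_zero.mpr (Real.sqrt_pos.mpr hα).ne'
  have hc : -I * τ ≠ 0 := mul_ne_zero (neg_ne_zero.mpr Complex.I_ne_zero) hτ0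
  have hcp : (-I * τ) ^ (1 / 2 : ℂ) ≠ 0 := by
    rw [Complex.cpow_def_of_ne_zero hc]
    exact Complex.exp_ne_zero _
  -- Step 1: LHS as a theta function
  have hL : ∑' k : ℤ, cexp (π * I * τ * ((α : ℂ) * ((k : ℂ) + w) ^ 2)) =
      cexp (π * I * ((α : ℂ) * τ) * w ^ 2) *
        jacobiTheta₂ ((α : ℂ) * τ * w) ((α : ℂ) * τ) := by
    rw [jacobiTheta₂, ← tsum_mul_left]
    refine tsum_congr (fun k => ?_)
    rw [jacobiTheta₂_term, ← Complex.exp_add]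
    congr 1
    ring
  -- Step 3: RHS sum as a theta function
  have hR : ∑' m : ℤ, cexp (-π * I * (m : ℂ) ^ 2 / ((α : ℂ) * τ) + 2 * π * I * m * w) =
      jacobiTheta₂ w (-1 / ((α : ℂ) * τ)) := by
    rw [jacobiTheta₂]
    refine tsum_congr (fun m => ?_)
    rw [jacobiTheta₂_term]
    congr 1
    field_simp
    ring
  have hZ : (α : ℂ) * τ * w / ((α : ℂ) * τ) = w := by
    field_simp
  have hE : cexp (π * I * ((α : ℂ) * τ) * w ^ 2) *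
      cexp (-π * I * ((α : ℂ) * τ * w) ^ 2 / ((α : ℂ) * τ)) = 1 := by
    rw [← Complex.exp_add]
    have : π * I * ((α : ℂ) * τ) * w ^ 2 +
        -π * I * ((α : ℂ) * τ * w) ^ 2 / ((α : ℂ) * τ) = 0 := by
      field_simp
      ring
    rw [this, Complex.exp_zero]
  rw [hL, hR, jacobiTheta₂_functional_equation, hZ, poissonone_const α hα τ hτ0,
    Complex.ofReal_inv]
  calc cexp (π * I * ((α : ℂ) * τ) * w ^ 2) *
        (1 / (((Real.sqrt α : ℝ) : ℂ) * (-I * τ) ^ (1 / 2 : ℂ)) *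
          cexp (-π * I * ((α : ℂ) * τ * w) ^ 2 / ((α : ℂ) * τ)) *
          jacobiTheta₂ w (-1 / ((α : ℂ) * τ)))
      = (cexp (π * I * ((α : ℂ) * τ) * w ^ 2) *
          cexp (-π * I * ((α : ℂ) * τ * w) ^ 2 / ((α : ℂ) * τ))) *
        (1 / (((Real.sqrt α : ℝ) : ℂ) * (-I * τ) ^ (1 / 2 : ℂ))) *
          jacobiTheta₂ w (-1 / ((α : ℂ) * τ)) := by ring
    _ = ((Real.sqrt α : ℝ) : ℂ)⁻¹ * (1 / (-I * τ) ^ (1 / 2 : ℂ)) *
          jacobiTheta₂ w (-1 / ((α : ℂ) * τ)) := by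
        rw [hE, one_mul]
        congr 1
        field_simp

end Fermat.Agent.S16.INV
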