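import Fermat.Agent.S16.INV.Defs

/-!
# S16 / INV: the inverse of a symmetric positive definite matrix; link with `Matrix.PosDef`.
INTERFACE (statements frozen, owner helper19).
-/

set_option autoImplicit false

namespace Fermat.Agent.S16.INV

open Complex Real

variable {n : ℕ}

theorem posinv_sum_eq (M : Matrix (Fin n) (Fin n) ℝ) (u : Fin n → ℝ) :
    ∑ i, ∑ j, M i j * u i * u j = dotProduct u (M.mulVec u) := by
  simp only [dotProduct, Matrix.mulVec, Finset.mul_sum]
  refine Finset.sum_congr rfl (fun i _ => Finset.sum_congr rfl (fun j _ => ?_))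
  ring

/-- The inverse of a symmetric matrix is symmetric. -/
theorem symm_inv {A B : Matrix (Fin n) (Fin n) ℝ} (hA : Pos A) (hAB : A * B = 1) :
    ∀ i j, B i j = B j i := by
  have hAt : A.transpose = A := by
    ext i j
    exact hA.1 j i
  have hBt : B.transpose = B := by
    calc B.transpose = B.transpose * (A * B) := by rw [hAB, Matrix.mul_one]
      _ = (B.transpose * A.transpose) * B := by rw [hAt, Matrix.mul_assoc]
      _ = (A * B).transpose * B := by rw [Matrix.transpose_mul]
      _ = B := by rw [hAB, Matrix.transpose_one, Matrix.one_mul]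
  intro i j
  have := congrFun (congrFun hBt j) i
  simpa [Matrix.transpose_apply] using this

/-- The inverse of a symmetric positive definite matrix is symmetric positive definite. -/
theorem pos_inv {A B : Matrix (Fin n) (Fin n) ℝ} (hA : Pos A) (hAB : A * B = 1) : Pos B := by
  refine ⟨symm_inv hA hAB, ?_⟩
  intro y hy
  have hAx : A.mulVec (B.mulVec y) = y := by
    rw [Matrix.mulVec_mulVec, hAB, Matrix.one_mulVec]
  have hx : B.mulVec y ≠ 0 := by
    intro h
    apply hy
    rw [← hAx, h, Matrix.mulVec_zero]
  have h1 := hA.2 (B.mulVec y) hx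
  rw [posinv_sum_eq, hAx] at h1
  rw [posinv_sum_eq]
  rw [dotProduct_comm] at h1
  exact h1

/-- Mathlib's `Matrix.PosDef` implies `Pos`. -/
theorem pos_of_posDef {A : Matrix (Fin n) (Fin n) ℝ} (hA : A.PosDef) : Pos A := by
  refine ⟨?_, ?_⟩
  · intro i j
    have h := congrFun (congrFun hA.isHermitian j) i
    simpa [Matrix.conjTranspose_apply] using h
  · intro x hx
    have h := hA.dotProduct_mulVec_pos hx
    rw [posinv_sum_eq]
    simpa using h

end Fermat.Agent.S16.INV
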