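import Fermat.Agent.S16.INV.SummableS

/-!
# S16 / INV: summability of the theta series (complex characteristic).
INTERFACE (statements frozen, owner helper19).
-/

set_option autoImplicit false

namespace Fermat.Agent.S16.INV

open Complex Real

variable {n : ℕ}

theorem summablea_bil_symm {A : Matrix (Fin n) (Fin n) ℝ} (hs : ∀ i j, A i j = A j i)
    (u w : Fin n → ℝ) :
    ∑ i, ∑ j, A i j * u i * w j = ∑ i, ∑ j, A i j * w i * u j := by
  rw [Finset.sum_comm]
  refine Finset.sum_congr rfl (fun i _ => Finset.sum_congr rfl (fun j _ => ?_))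
  rw [hs j i]; ring

theorem summablea_qf_re (A : Matrix (Fin n) (Fin n) ℝ) (v : Fin n → ℂ) (x : Fin n → ℤ) :
    (qf A (fun i => (x i : ℂ) + v i)).re =
      ∑ i, ∑ j, A i j * (((x i : ℝ) + (v i).re) * ((x j : ℝ) + (v j).re)
        - (v i).im * (v j).im) := by
  unfold qf
  rw [Complex.re_sum]
  refine Finset.sum_congr rfl (fun i _ => ?_)
  rw [Complex.re_sum]
  refine Finset.sum_congr rfl (fun j _ => ?_)
  simp [Complex.mul_re, Complex.mul_im]
  ring

theorem summablea_qf_im (A : Matrix (Fin n) (Fin n) ℝ) (v : Fin n → ℂ) (x : Fin n → ℤ) :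
    (qf A (fun i => (x i : ℂ) + v i)).im =
      ∑ i, ∑ j, A i j * (((x i : ℝ) + (v i).re) * (v j).im
        + (v i).im * ((x j : ℝ) + (v j).re)) := by
  unfold qf
  rw [Complex.im_sum]
  refine Finset.sum_congr rfl (fun i _ => ?_)
  rw [Complex.im_sum]
  refine Finset.sum_congr rfl (fun j _ => ?_)
  simp [Complex.mul_re, Complex.mul_im]
  ring

/-- The norm of `termA` is a constant times a real Gaussian with a linear term. -/
theorem norm_termA {A : Matrix (Fin n) (Fin n) ℝ} (hA : Pos A) (τ : ℂ) (v : Fin n → ℂ) :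
    ∃ (C : ℝ) (b : Fin n → ℝ), ∀ x : Fin n → ℤ, ‖termA A τ v x‖ =
      C * Real.exp (-(π * τ.im) * (∑ i, ∑ j, A i j * (x i : ℝ) * (x j : ℝ)) +
        ∑ i, b i * (x i : ℝ)) := by
  refine ⟨Real.exp (-π * (τ.im * ((∑ i, ∑ j, A i j * (v i).re * (v j).re)
      - ∑ i, ∑ j, A i j * (v i).im * (v j).im)
      + τ.re * (2 * ∑ i, ∑ j, A i j * (v i).re * (v j).im))),
    fun i => -π * (τ.im * (2 * ∑ j, A i j * (v j).re) + τ.re * (2 * ∑ j, A i j * (v j).im)),
    fun x => ?_⟩
  rw [← Real.exp_add, termA, Complex.norm_exp]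
  congr 1
  have hmain : (↑π * I * τ * qf A (fun i => (x i : ℂ) + v i)).re =
      -π * (τ.im * (qf A (fun i => (x i : ℂ) + v i)).re
        + τ.re * (qf A (fun i => (x i : ℂ) + v i)).im) := by
    simp [Complex.mul_re, Complex.mul_im]
    ring
  rw [hmain, summablea_qf_re, summablea_qf_im]
  have h1 : ∀ i j : Fin n, A i j * (((x i : ℝ) + (v i).re) * ((x j : ℝ) + (v j).re)
        - (v i).im * (v j).im) = A i j * (x i : ℝ) * (x j : ℝ) + A i j * (x i : ℝ) * (v j).re
        + A i j * (v i).re * (x j : ℝ) + A i j * (v i).re * (v j).re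
        - A i j * (v i).im * (v j).im := by
    intro i j; ring
  have h2 : ∀ i j : Fin n, A i j * (((x i : ℝ) + (v i).re) * (v j).im
        + (v i).im * ((x j : ℝ) + (v j).re)) = A i j * (x i : ℝ) * (v j).im
        + A i j * (v i).re * (v j).im
        + A i j * (v i).im * (x j : ℝ) + A i j * (v i).im * (v j).re := by
    intro i j; ring
  have h3 : ∑ i, (-π * (τ.im * (2 * ∑ j, A i j * (v j).re)
      + τ.re * (2 * ∑ j, A i j * (v j).im))) * (x i : ℝ)
      = -π * (τ.im * (2 * ∑ i, ∑ j, A i j * (x i : ℝ) * (v j).re)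
        + τ.re * (2 * ∑ i, ∑ j, A i j * (x i : ℝ) * (v j).im)) := by
    simp only [Finset.mul_sum, ← Finset.sum_add_distrib]
    refine Finset.sum_congr rfl (fun i _ => ?_)
    simp only [Finset.sum_mul]
    refine Finset.sum_congr rfl (fun j _ => ?_)
    ring
  simp only [h1, h2, h3, Finset.sum_add_distrib, Finset.sum_sub_distrib]
  have e1 := summablea_bil_symm hA.1 (fun i => (v i).re) (fun i => (x i : ℝ))
  have e2 := summablea_bil_symm hA.1 (fun i => (v i).im) (fun i => (x i : ℝ))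
  have e3 := summablea_bil_symm hA.1 (fun i => (v i).im) (fun i => (v i).re)
  beta_reduce at e1 e2 e3
  rw [e1, e2, e3]
  ring

theorem summable_termA {A : Matrix (Fin n) (Fin n) ℝ} (hA : Pos A) (τ : ℂ) (hτ : 0 < τ.im)
    (v : Fin n → ℂ) : Summable (termA A τ v) := by
  obtain ⟨C, b, h⟩ := norm_termA hA τ v
  apply Summable.of_norm
  have hs := (summable_gauss_lin hA (π * τ.im) (mul_pos Real.pi_pos hτ) b).mul_left C
  exact hs.congr (fun x => (h x).symm)

end Fermat.Agent.S16.INV
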