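import Fermat.Agent.S16.INV.SummableS
import Fermat.Agent.S16.INV.PosInv

/-!
# S16 / INV: summability of the dual theta series.
INTERFACE (statements frozen, owner helper19).
-/

set_option autoImplicit false

namespace Fermat.Agent.S16.INV

open Complex Real

variable {n : ℕ}

theorem summableb_aux_qf (B : Matrix (Fin n) (Fin n) ℝ) (y : Fin n → ℤ) :
    qf B (fun i => (y i : ℂ)) =
      ((∑ i, ∑ j, B i j * (y i : ℝ) * (y j : ℝ) : ℝ) : ℂ) := by
  unfold qf
  push_cast
  rfl

theorem summableb_aux_re1 (τ : ℂ) (q : ℝ) :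
    (-π * I / τ * (q : ℂ)).re = -(π * τ.im / Complex.normSq τ) * q := by
  rw [div_eq_mul_inv]
  simp only [Complex.mul_re, Complex.mul_im, Complex.inv_re, Complex.inv_im, Complex.neg_re,
    Complex.neg_im, Complex.ofReal_re, Complex.ofReal_im, Complex.I_re, Complex.I_im]
  ring

theorem summableb_aux_re2 (v : Fin n → ℂ) (y : Fin n → ℤ) :
    (2 * π * I * ∑ i, (y i : ℂ) * v i).re = ∑ i, (-(2 * π) * (v i).im) * (y i : ℝ) := by
  have h : (∑ i, (y i : ℂ) * v i).im = ∑ i, (y i : ℝ) * (v i).im := by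
    rw [Complex.im_sum]
    refine Finset.sum_congr rfl (fun i _ => ?_)
    simp [Complex.mul_im]
  have h2 : (2 * π * I * ∑ i, (y i : ℂ) * v i).re = -(2 * π) * (∑ i, (y i : ℂ) * v i).im := by
    simp [Complex.mul_re, Complex.mul_im]
  rw [h2, h, Finset.mul_sum]
  refine Finset.sum_congr rfl (fun i _ => ?_)
  ring

/-- The norm of `termB`: a real Gaussian with a linear term. -/
theorem norm_termB (B : Matrix (Fin n) (Fin n) ℝ) (τ : ℂ) (hτ : 0 < τ.im) (v : Fin n → ℂ)
    (y : Fin n → ℤ) :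
    ‖termB B τ v y‖ =
      Real.exp (-(π * τ.im / Complex.normSq τ) * (∑ i, ∑ j, B i j * (y i : ℝ) * (y j : ℝ)) +
        ∑ i, (-(2 * π) * (v i).im) * (y i : ℝ)) := by
  have _hτ := hτ
  rw [termB, Complex.norm_exp]
  congr 1
  rw [Complex.add_re, summableb_aux_qf, summableb_aux_re1, summableb_aux_re2]

theorem summable_termB {A B : Matrix (Fin n) (Fin n) ℝ} (hA : Pos A) (hAB : A * B = 1) (τ : ℂ)
    (hτ : 0 < τ.im) (v : Fin n → ℂ) : Summable (termB B τ v) := by
  have hB : Pos B := pos_inv hA hAB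
  have hτ0 : τ ≠ 0 := by
    intro h
    rw [h] at hτ
    simp at hτ
  have hc : 0 < π * τ.im / Complex.normSq τ :=
    div_pos (mul_pos Real.pi_pos hτ) (Complex.normSq_pos.mpr hτ0)
  apply Summable.of_norm
  have hS := summable_gauss_lin hB (π * τ.im / Complex.normSq τ) hc
    (fun i => -(2 * π) * (v i).im)
  refine hS.congr (fun y => ?_)
  rw [norm_termB B τ hτ v y]

end Fermat.Agent.S16.INV
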