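import Fermat.Agent.S16.INV.SummableA
import Fermat.Agent.S16.INV.Alg

/-!
# S16 / INV: summability of the mixed family.  INTERFACE (statement frozen, owner helper19).
-/

set_option autoImplicit false

namespace Fermat.Agent.S16.INV

open Complex Real

variable {n : ℕ}

theorem summablemixed_wshift_im (A : Matrix (Fin (n + 1)) (Fin (n + 1)) ℝ)
    (v : Fin (n + 1) → ℂ) (x' : Fin n → ℤ) :
    (wshift A v x').im = (v 0).im + ∑ j, lrow A j * (v j.succ).im := by
  simp [wshift, Complex.add_im, Complex.im_sum, Complex.mul_im]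

theorem summablemixed_re (a : ℝ) (ha : 0 < a) (τ : ℂ) (hτ : 0 < τ.im) (m : ℤ) (w : ℂ) :
    (-π * I * (m : ℂ) ^ 2 / ((a : ℂ) * τ) + 2 * π * I * m * w).re
      = -(π * τ.im / (a * Complex.normSq τ)) * (m : ℝ) ^ 2 + (-2 * π * w.im) * (m : ℝ) := by
  have hτ0 : τ ≠ 0 := by
    intro h
    rw [h] at hτ
    simp at hτ
  have hns : 0 < Complex.normSq τ := Complex.normSq_pos.mpr hτ0
  have h1 : (-π * I * (m : ℂ) ^ 2 / ((a : ℂ) * τ))
      = ((-(π * (m : ℝ) ^ 2 / (a * Complex.normSq τ)) : ℝ) : ℂ) * (I * (starRingEnd ℂ) τ) := by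
    have h2 : τ * (starRingEnd ℂ) τ = (Complex.normSq τ : ℂ) := Complex.mul_conj τ
    have h3 : (Complex.normSq τ : ℂ) ≠ 0 := by
      exact_mod_cast hns.ne'
    have ha' : (a : ℂ) ≠ 0 := by exact_mod_cast ha.ne'
    push_cast
    rw [← h2]
    have h4 : (starRingEnd ℂ) τ ≠ 0 := by
      intro h
      rw [h] at h2
      simp at h2
      exact h3 h2.symm
    field_simp
  have h5 : (2 * π * I * m * w : ℂ) = ((2 * π * (m : ℝ) : ℝ) : ℂ) * (I * w) := by
    push_cast
    ring
  rw [Complex.add_re, h1, h5, Complex.re_ofReal_mul, Complex.re_ofReal_mul]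
  simp only [Complex.mul_re, Complex.I_re, Complex.I_im, Complex.conj_re, Complex.conj_im]
  field_simp
  ring

theorem summable_mixed {A : Matrix (Fin (n + 1)) (Fin (n + 1)) ℝ} (hA : Pos A) (τ : ℂ)
    (hτ : 0 < τ.im) (v : Fin (n + 1) → ℂ) :
    Summable fun p : ℤ × (Fin n → ℤ) => mixed A τ v p.1 p.2 := by
  have ha : 0 < A 0 0 := pos_pivot hA
  have hτ0 : τ ≠ 0 := by
    intro h
    rw [h] at hτ
    simp at hτ
  have hns : 0 < Complex.normSq τ := Complex.normSq_pos.mpr hτ0
  set c₀ : ℝ := (v 0).im + ∑ j, lrow A j * (v j.succ).im with hc₀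
  have hf : Summable fun m : ℤ =>
      Real.exp (-(π * τ.im / (A 0 0 * Complex.normSq τ)) * (m : ℝ) ^ 2 + (-2 * π * c₀) * m) :=
    summable_gauss_one _ (by positivity) _
  have hg : Summable fun x' : Fin n → ℤ => ‖termA (schur A) τ (Fin.tail v) x'‖ :=
    (summable_termA (pos_schur hA) τ hτ (Fin.tail v)).norm
  have hfg := Summable.mul_of_nonneg hf hg (fun _ => (Real.exp_pos _).le) (fun _ => norm_nonneg _)
  apply Summable.of_norm
  refine hfg.congr ?_
  intro p
  simp only [mixed]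
  rw [norm_mul, Complex.norm_exp, summablemixed_re (A 0 0) ha τ hτ p.1 (wshift A v p.2),
    summablemixed_wshift_im]

end Fermat.Agent.S16.INV
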