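import Fermat.Agent.S16.INV.Defs

/-!
# S16 / INV: splitting off the coordinate `0` in `termA`.
INTERFACE (statement frozen, owner helper19).
-/

set_option autoImplicit false

namespace Fermat.Agent.S16.INV

open Complex Real

variable {n : ℕ}

/-- Complex completion of the square:
`zᵀ A z = α (z₀ + ∑ ℓⱼ z_{j+1})² + z'ᵀ (schur A) z'` (`A` symmetric, `α = A 0 0 ≠ 0`). -/
theorem qf_sq_completion {A : Matrix (Fin (n + 1)) (Fin (n + 1)) ℝ} (hsymm : ∀ i j, A i j = A j i)
    (hα : A 0 0 ≠ 0) (z : Fin (n + 1) → ℂ) :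
    qf A z = (A 0 0 : ℂ) * (z 0 + ∑ j, (lrow A j : ℂ) * z j.succ) ^ 2 +
      qf (schur A) (fun j => z j.succ) := by
  have hα' : (A 0 0 : ℂ) ≠ 0 := Complex.ofReal_ne_zero.mpr hα
  have h1 : qf A z = (A 0 0 : ℂ) * z 0 ^ 2
      + 2 * z 0 * (∑ j : Fin n, (A 0 j.succ : ℂ) * z j.succ)
      + ∑ i : Fin n, ∑ j : Fin n, (A i.succ j.succ : ℂ) * z i.succ * z j.succ := by
    unfold qf
    rw [Fin.sum_univ_succ, Fin.sum_univ_succ]
    have e1 : ∑ i : Fin n, ∑ j : Fin (n + 1), (A i.succ j : ℂ) * z i.succ * z j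
        = z 0 * (∑ j : Fin n, (A 0 j.succ : ℂ) * z j.succ)
          + ∑ i : Fin n, ∑ j : Fin n, (A i.succ j.succ : ℂ) * z i.succ * z j.succ := by
      rw [Finset.mul_sum, ← Finset.sum_add_distrib]
      refine Finset.sum_congr rfl (fun i _ => ?_)
      rw [Fin.sum_univ_succ, hsymm i.succ 0]
      ring
    have e2 : ∑ j : Fin n, (A 0 j.succ : ℂ) * z 0 * z j.succ
        = z 0 * (∑ j : Fin n, (A 0 j.succ : ℂ) * z j.succ) := by
      rw [Finset.mul_sum]
      refine Finset.sum_congr rfl (fun j _ => ?_)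
      ring
    rw [e1, e2]
    ring
  have h2 : ∑ j : Fin n, (lrow A j : ℂ) * z j.succ
      = (∑ j : Fin n, (A 0 j.succ : ℂ) * z j.succ) / (A 0 0 : ℂ) := by
    rw [Finset.sum_div]
    refine Finset.sum_congr rfl (fun j _ => ?_)
    unfold lrow
    rw [Complex.ofReal_div]
    ring
  have h3 : qf (schur A) (fun j => z j.succ)
      = (∑ i : Fin n, ∑ j : Fin n, (A i.succ j.succ : ℂ) * z i.succ * z j.succ)
        - (∑ j : Fin n, (A 0 j.succ : ℂ) * z j.succ)
          * (∑ j : Fin n, (A 0 j.succ : ℂ) * z j.succ) / (A 0 0 : ℂ) := by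
    unfold qf
    rw [Finset.sum_mul_sum, Finset.sum_div, ← Finset.sum_sub_distrib]
    refine Finset.sum_congr rfl (fun i _ => ?_)
    rw [Finset.sum_div, ← Finset.sum_sub_distrib]
    refine Finset.sum_congr rfl (fun j _ => ?_)
    have hs : schur A i j = A i.succ j.succ - A 0 i.succ * A 0 j.succ / A 0 0 := by
      unfold schur
      rw [hsymm i.succ 0]
    rw [hs]
    push_cast
    ring
  rw [h1, h2, h3]
  field_simp
  ring

/-- `termA` of `(k, x')` is a one-dimensional Gaussian in `k` times `termA` of the Schur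
complement. -/
theorem termA_cons {A : Matrix (Fin (n + 1)) (Fin (n + 1)) ℝ} (hsymm : ∀ i j, A i j = A j i)
    (hα : A 0 0 ≠ 0) (τ : ℂ) (v : Fin (n + 1) → ℂ) (k : ℤ) (x' : Fin n → ℤ) :
    termA A τ v (Fin.cons k x') =
      cexp (π * I * τ * ((A 0 0 : ℂ) * ((k : ℂ) + wshift A v x') ^ 2)) *
        termA (schur A) τ (Fin.tail v) x' := by
  unfold termA
  rw [← Complex.exp_add, qf_sq_completion hsymm hα]
  congr 1
  simp only [Fin.cons_zero, Fin.cons_succ]
  have hw : ((k : ℂ) + v 0 + ∑ j : Fin n, (lrow A j : ℂ) * ((x' j : ℂ) + v j.succ))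
      = (k : ℂ) + wshift A v x' := by
    unfold wshift
    ring
  rw [hw]
  have ht : (fun j : Fin n => (x' j : ℂ) + v j.succ)
      = fun i : Fin n => (x' i : ℂ) + Fin.tail v i := rfl
  rw [ht]
  ring

end Fermat.Agent.S16.INV
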