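import Fermat.Agent.S16.INV.Defs

/-!
# S16 / INV: reassembling the dual term.  INTERFACE (statement frozen, owner helper19).
-/

set_option autoImplicit false

namespace Fermat.Agent.S16.INV

open Complex Real

variable {n : ℕ}

theorem termbcons_R1 {A B : Matrix (Fin (n + 1)) (Fin (n + 1)) ℝ}
    (hB : ∀ i j, B i j = B j i) (hAB : A * B = 1) (hα : A 0 0 ≠ 0) (j : Fin n) :
    B 0 j.succ = -∑ k, lowerRight B j k * lrow A k := by
  have h := congrFun (congrFun hAB 0) j.succ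
  rw [Matrix.mul_apply, Matrix.one_apply, if_neg (Fin.succ_ne_zero j).symm,
    Fin.sum_univ_succ] at h
  have h2 : ∑ k, lowerRight B j k * lrow A k =
      (∑ k : Fin n, A 0 k.succ * B k.succ j.succ) / A 0 0 := by
    rw [Finset.sum_div]
    refine Finset.sum_congr rfl (fun k _ => ?_)
    unfold lowerRight lrow
    rw [hB j.succ k.succ]; ring
  rw [h2]
  field_simp
  linarith

theorem termbcons_R2 {A B : Matrix (Fin (n + 1)) (Fin (n + 1)) ℝ}
    (hB : ∀ i j, B i j = B j i) (hAB : A * B = 1) (hα : A 0 0 ≠ 0) :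
    B 0 0 = 1 / A 0 0 + kappa A B := by
  have h := congrFun (congrFun hAB 0) 0
  rw [Matrix.mul_apply, Matrix.one_apply, if_pos rfl, Fin.sum_univ_succ] at h
  have h2 : kappa A B = - (∑ k : Fin n, A 0 k.succ * B k.succ 0) / A 0 0 := by
    unfold kappa
    rw [neg_div, Finset.sum_div, ← Finset.sum_neg_distrib]
    refine Finset.sum_congr rfl (fun k _ => ?_)
    have h3 : ∑ k_1, lowerRight B k k_1 * lrow A k * lrow A k_1 =
        lrow A k * ∑ k_1, lowerRight B k k_1 * lrow A k_1 := by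
      rw [Finset.mul_sum]
      refine Finset.sum_congr rfl (fun k1 _ => ?_)
      ring
    rw [h3, hB k.succ 0, termbcons_R1 hB hAB hα k]
    unfold lrow
    ring
  rw [h2]
  field_simp
  linarith

theorem termbcons_Q {B : Matrix (Fin (n + 1)) (Fin (n + 1)) ℝ}
    (hB : ∀ i j, B i j = B j i) (m : ℤ) (y' : Fin n → ℤ) :
    qf B (fun i => ((Fin.cons m y' : Fin (n + 1) → ℤ) i : ℂ)) =
      (B 0 0 : ℂ) * (m : ℂ) ^ 2 + 2 * (m : ℂ) * ∑ j, (B 0 j.succ : ℂ) * (y' j : ℂ)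
        + qf (lowerRight B) (fun j => (y' j : ℂ)) := by
  unfold qf
  rw [Fin.sum_univ_succ, Fin.sum_univ_succ]
  simp only [Fin.cons_zero, Fin.cons_succ]
  have h1 : ∑ i : Fin n, ∑ j : Fin (n + 1), (B i.succ j : ℂ) * (y' i : ℂ) *
        ((Fin.cons m y' : Fin (n + 1) → ℤ) j : ℂ) =
      (m : ℂ) * ∑ j, (B 0 j.succ : ℂ) * (y' j : ℂ) +
        ∑ i : Fin n, ∑ j : Fin n, (lowerRight B i j : ℂ) * (y' i : ℂ) * (y' j : ℂ) := by
    rw [Finset.mul_sum, ← Finset.sum_add_distrib]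
    refine Finset.sum_congr rfl (fun i _ => ?_)
    rw [Fin.sum_univ_succ]
    simp only [Fin.cons_zero, Fin.cons_succ]
    rw [hB i.succ 0]
    unfold lowerRight
    ring
  have h2 : ∑ i : Fin n, (B 0 i.succ : ℂ) * (m : ℂ) * (y' i : ℂ) =
      (m : ℂ) * ∑ j, (B 0 j.succ : ℂ) * (y' j : ℂ) := by
    rw [Finset.mul_sum]
    refine Finset.sum_congr rfl (fun i _ => ?_)
    ring
  rw [h1, h2]
  ring

/-- `E(m) · termB B' τ (v' + s_m) y' = termB B τ v (m, y')` when `A`, `B` are symmetric,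
`A * B = 1` and `A 0 0 ≠ 0`. -/
theorem termB_cons {A B : Matrix (Fin (n + 1)) (Fin (n + 1)) ℝ}
    (hA : ∀ i j, A i j = A j i) (hB : ∀ i j, B i j = B j i) (hAB : A * B = 1) (hα : A 0 0 ≠ 0)
    (τ : ℂ) (hτ : τ ≠ 0) (v : Fin (n + 1) → ℂ) (m : ℤ) (y' : Fin n → ℤ) :
    Efac A B τ (v 0) m * termB (lowerRight B) τ (fun j => v j.succ + shift A B τ m j) y' =
      termB B τ v (Fin.cons m y') := by
  have hαc : (A 0 0 : ℂ) ≠ 0 := Complex.ofReal_ne_zero.mpr hα
  have hs : ∑ j, (y' j : ℂ) * (v j.succ + shift A B τ m j) =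
      ∑ j, (y' j : ℂ) * v j.succ +
        (m : ℂ) / τ * ∑ j, (y' j : ℂ) * ∑ k, (lowerRight B j k : ℂ) * (lrow A k : ℂ) := by
    rw [Finset.mul_sum, ← Finset.sum_add_distrib]
    refine Finset.sum_congr rfl (fun j _ => ?_)
    unfold shift
    ring
  have hP : ∑ j, (B 0 j.succ : ℂ) * (y' j : ℂ) =
      - ∑ j, (y' j : ℂ) * ∑ k, (lowerRight B j k : ℂ) * (lrow A k : ℂ) := by
    rw [← Finset.sum_neg_distrib]
    refine Finset.sum_congr rfl (fun j _ => ?_)
    rw [termbcons_R1 hB hAB hα j]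
    push_cast
    ring
  have hV : ∑ i, ((Fin.cons m y' : Fin (n + 1) → ℤ) i : ℂ) * v i =
      (m : ℂ) * v 0 + ∑ j, (y' j : ℂ) * v j.succ := by
    rw [Fin.sum_univ_succ]
    simp only [Fin.cons_zero, Fin.cons_succ]
  have hQ := termbcons_Q hB m y'
  rw [hP, termbcons_R2 hB hAB hα] at hQ
  unfold Efac termB
  rw [← Complex.exp_add]
  congr 1
  rw [hs, hV, hQ]
  push_cast
  field_simp
  ring

end Fermat.Agent.S16.INV
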