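import Fermat.Agent.S16.INV.Alg
import Fermat.Agent.S16.INV.PosInv
import Fermat.Agent.S16.INV.TermACons
import Fermat.Agent.S16.INV.PoissonOne
import Fermat.Agent.S16.INV.MixedEq
import Fermat.Agent.S16.INV.TermBCons
import Fermat.Agent.S16.INV.SummableA
import Fermat.Agent.S16.INV.SummableB
import Fermat.Agent.S16.INV.SummableMixed

/-!
# S16 / INV (attempt A, owner helper19): the Gaussian Poisson summation formula in `n` variables,
by induction on `n` (assembly of the leaves).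
-/

set_option autoImplicit false

namespace Fermat.Agent.S16.INV

open Complex Real

/-- The statement `P(n)`. -/
def PoissonAt (n : ℕ) : Prop :=
  ∀ (A B : Matrix (Fin n) (Fin n) ℝ), Pos A → A * B = 1 → ∀ (τ : ℂ), 0 < τ.im →
    ∀ v : Fin n → ℂ,
      ∑' x, termA A τ v x =
        (((Real.sqrt (pivProd n A))⁻¹ : ℝ) : ℂ) * (1 / (-I * τ) ^ (1 / 2 : ℂ)) ^ n *
          ∑' y, termB B τ v y

theorem poissonAt_zero : PoissonAt 0 := by
  intro A B _ _ τ _ v
  rw [tsum_eq_single (0 : Fin 0 → ℤ) (fun x hx => absurd (Subsingleton.elim x 0) hx),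
    tsum_eq_single (0 : Fin 0 → ℤ) (fun x hx => absurd (Subsingleton.elim x 0) hx)]
  simp [termA, termB, qf, pivProd]

theorem poissonAt_succ (n : ℕ) (IH : PoissonAt n) : PoissonAt (n + 1) := by
  intro A B hA hAB τ hτ v
  have hα : 0 < A 0 0 := pos_pivot hA
  have hS : Pos (schur A) := pos_schur hA
  have hSB : schur A * lowerRight B = 1 := schur_mul_lowerRight hA hAB
  have hB : ∀ i j, B i j = B j i := symm_inv hA hAB
  have hτ0 : τ ≠ 0 := by
    rintro rfl
    simp at hτ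
  -- the constants
  obtain ⟨c₁, hc₁⟩ : ∃ c₁ : ℂ, c₁ = (((Real.sqrt (A 0 0))⁻¹ : ℝ) : ℂ) * (1 / (-I * τ) ^ (1 / 2 : ℂ)) :=
    ⟨_, rfl⟩
  obtain ⟨c₂, hc₂⟩ : ∃ c₂ : ℂ, c₂ = (((Real.sqrt (pivProd n (schur A)))⁻¹ : ℝ) : ℂ) *
      (1 / (-I * τ) ^ (1 / 2 : ℂ)) ^ n := ⟨_, rfl⟩
  have hconst : (((Real.sqrt (pivProd (n + 1) A))⁻¹ : ℝ) : ℂ) *
      (1 / (-I * τ) ^ (1 / 2 : ℂ)) ^ (n + 1) = c₁ * c₂ := by
    rw [hc₁, hc₂]
    have h1 : pivProd (n + 1) A = A 0 0 * pivProd n (schur A) := rfl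
    rw [h1, Real.sqrt_mul hα.le, mul_inv, pow_succ]
    push_cast
    ring
  -- step 1: the left-hand side as an iterated sum
  have hsA : Summable (fun p : ℤ × (Fin n → ℤ) => termA A τ v (Fin.cons p.1 p.2)) :=
    ((Fin.consEquiv (fun _ : Fin (n + 1) => ℤ)).summable_iff (f := termA A τ v)).mpr
      (summable_termA hA τ hτ v)
  have e1 : ∑' x, termA A τ v x = ∑' x' : Fin n → ℤ, ∑' k : ℤ, termA A τ v (Fin.cons k x') := by
    rw [← (Fin.consEquiv (fun _ : Fin (n + 1) => ℤ)).tsum_eq (termA A τ v)]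
    have h := hsA.tsum_prod
    have h' := Summable.tsum_comm (f := fun (k : ℤ) (x' : Fin n → ℤ) => termA A τ v (Fin.cons k x'))
      hsA
    rw [h']
    exact h
  -- step 2: one-dimensional Poisson summation in the coordinate `0`
  have e2 : ∀ x' : Fin n → ℤ, ∑' k : ℤ, termA A τ v (Fin.cons k x') =
      c₁ * ∑' m : ℤ, mixed A τ v m x' := by
    intro x'
    have h1 : ∀ k : ℤ, termA A τ v (Fin.cons k x') =
        cexp (π * I * τ * ((A 0 0 : ℂ) * ((k : ℂ) + wshift A v x') ^ 2)) *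
          termA (schur A) τ (Fin.tail v) x' :=
      fun k => termA_cons hA.1 hα.ne' τ v k x'
    simp_rw [h1]
    rw [tsum_mul_right, poisson_one (A 0 0) hα τ hτ (wshift A v x'), ← hc₁, mul_assoc,
      ← tsum_mul_right]
    rfl
  -- step 3: exchange the two sums
  have e3 : ∑' x' : Fin n → ℤ, ∑' m : ℤ, mixed A τ v m x' =
      ∑' m : ℤ, ∑' x' : Fin n → ℤ, mixed A τ v m x' :=
    Summable.tsum_comm (f := fun (m : ℤ) (x' : Fin n → ℤ) => mixed A τ v m x')
      (summable_mixed hA τ hτ v)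
  -- step 4: complete the square and apply the induction hypothesis
  have e4 : ∀ m : ℤ, ∑' x' : Fin n → ℤ, mixed A τ v m x' =
      c₂ * ∑' y' : Fin n → ℤ, termB B τ v (Fin.cons m y') := by
    intro m
    have h1 : ∀ x' : Fin n → ℤ, mixed A τ v m x' =
        Efac A B τ (v 0) m * termA (schur A) τ (fun j => v j.succ + shift A B τ m j) x' :=
      fun x' => mixed_eq hS.1 hSB τ hτ0 v m x'
    simp_rw [h1]
    rw [tsum_mul_left, IH (schur A) (lowerRight B) hS hSB τ hτ, ← hc₂, mul_left_comm,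
      ← tsum_mul_left]
    congr 1
    refine tsum_congr (fun y' => ?_)
    exact termB_cons hA.1 hB hAB hα.ne' τ hτ0 v m y'
  -- step 5: the right-hand side as an iterated sum
  have hsB : Summable (fun p : ℤ × (Fin n → ℤ) => termB B τ v (Fin.cons p.1 p.2)) :=
    ((Fin.consEquiv (fun _ : Fin (n + 1) => ℤ)).summable_iff (f := termB B τ v)).mpr
      (summable_termB hA hAB τ hτ v)
  have e5 : ∑' y, termB B τ v y = ∑' m : ℤ, ∑' y' : Fin n → ℤ, termB B τ v (Fin.cons m y') := by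
    rw [← (Fin.consEquiv (fun _ : Fin (n + 1) => ℤ)).tsum_eq (termB B τ v)]
    exact hsB.tsum_prod
  rw [hconst, e1, e5]
  simp_rw [e2]
  rw [tsum_mul_left, e3]
  simp_rw [e4]
  rw [tsum_mul_left]
  ring

/-- **Gaussian Poisson summation in `n` variables** (complex characteristic `v`). -/
theorem poissonAt (n : ℕ) : PoissonAt n := by
  induction n with
  | zero => exact poissonAt_zero
  | succ n ih => exact poissonAt_succ n ih

end Fermat.Agent.S16.INV
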