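import Fermat.Agent.S16.INV.GaussLin
import Fermat.Agent.S16.INV.Coercive

/-!
# S16 / INV: Lemma S — `x ↦ exp(-c xᵀAx + bᵀx)` is summable over `ℤⁿ`.
INTERFACE (statement frozen, owner helper19).
-/

set_option autoImplicit false

namespace Fermat.Agent.S16.INV

open Complex Real

theorem summable_gauss_lin {n : ℕ} {A : Matrix (Fin n) (Fin n) ℝ} (hA : Pos A) (c : ℝ)
    (hc : 0 < c) (b : Fin n → ℝ) :
    Summable fun x : Fin n → ℤ =>
      Real.exp (-c * (∑ i, ∑ j, A i j * (x i : ℝ) * (x j : ℝ)) + ∑ i, b i * (x i : ℝ)) := by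
  obtain ⟨lam, hlam, hco⟩ := coercive hA
  refine Summable.of_nonneg_of_le (fun x => (Real.exp_pos _).le) (fun x => ?_)
    (summable_pi_gauss n (c * lam) (mul_pos hc hlam) b)
  apply Real.exp_le_exp.mpr
  have h := hco (fun i => (x i : ℝ))
  have h2 : ∑ i, (-(c * lam) * (x i : ℝ) ^ 2 + b i * (x i : ℝ))
      = -(c * lam) * ∑ i, (x i : ℝ) ^ 2 + ∑ i, b i * (x i : ℝ) := by
    rw [Finset.sum_add_distrib, Finset.mul_sum]
  rw [h2]
  have h3 := mul_le_mul_of_nonneg_left h hc.le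
  nlinarith [h3]
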